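import Fermat.Agent.S59.Arch.LOW

/-!
# Row S59, cell LO-Q (B1): `MazurW35` from its NEAT levels, by PAD / UNPAD with a Chebotarev prime
  (helper849; statement-level glue, replaces the target-level cell T3-DESC)

At `p = 3` the tame node relation (CORE-OUT-q) needs a modular unit of slope prime to `3` at `q`;
it exists iff the level is `3`-NEAT at `q`:

    Neat3 p q M  :=  p = 3 → q ≡ 1 (3)  ∨  ∃ r prime, r ∣ M, r ≠ q, r ≡ 2 (3).

If `M` is not neat, pad the level with a prime `r ≡ 2 (3)`, `r ∤ M`, `W` good at `r`,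
`3 ∤ a_r(W)` (Chebotarev): the level `r M` is neat, Mazur's principle at the neat level removes
`q`, and `r` is removed for free: `(r + 1)² ≡ 0` and `a_r² ≡ 1` modulo `3`, so `r` is not a
level-raising prime and every eigenform of level `r (M / q)` congruent to `W` is `r`-old
(S35 + oldforms).  No descent of the targets `𝓕`, `𝒮` is needed, and the degree `r + 1 ≡ 0 (3)` of
`X₀(rM) → X₀(M)` plays no role.

    mazurW35_of_neat : MazurW35NeatStatement → PadStatement → UnpadStatement → Cheb3Statement →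
      LOW.MazurW35Statement

The four hypotheses are stated in the weakest form that the glue consumes (every available
hypothesis is passed on), so any stronger theorem of the owners plugs in by a one-line adapter.
-/

set_option autoImplicit false

open scoped WeierstrassCurve.Affine

namespace Fermat.Agent.S59.LOQ.H849

open Fermat.Agent.S59.Arch Fermat.Agent.S59.Arch.LOW

/-- The level `M` is `3`-neat at `q` (vacuous for `p ≠ 3`): `q ≡ 1 mod 3`, or a prime
`r ≡ 2 mod 3`, `r ≠ q`, divides `M`. -/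
def Neat3 (p q M : ℕ) : Prop :=
  p = 3 → (q % 3 = 1 ∨ ∃ r : ℕ, r.Prime ∧ r ∣ M ∧ r ≠ q ∧ r % 3 = 2)

/-- **Mazur's principle in W-form at the NEAT levels** (`LOW.MazurW35Statement` with the extra
hypothesis `Neat3 p q M`). -/
def MazurW35NeatStatement : Prop :=
  ∀ (p : ℕ) [Fact p.Prime] (_hp : p = 3 ∨ p = 5)
    (W : WeierstrassCurve ℤ) (_hΔ : W.Δ ≠ 0) (_hW : W.IsSemistableModel)
    (_hirr : W.ModRepIsIrreducible p)
    (hcard : Nat.card (Submodule.torsionBy ℤ
      ((W.map (Int.castRingHom ℚ))⁄(AlgebraicClosure ℚ)).Point p) = p ^ 2)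
    (hker : GaloisFactorsThroughFiniteLevel
      (WeierstrassCurve.Affine.Point.galoisRepModuleEnd (K := AlgebraicClosure ℚ) ℚ
        (W.map (Int.castRingHom ℚ)) p))
    (M q : ℕ) (_hM : Squarefree M) (_hq : q.Prime) (_hqp : q ≠ p) (_hqM : q ∣ M)
    (_hunr : ((W.map (Int.castRingHom ℚ)).residualGaloisRepOf p hcard hker).IsUnramifiedAt q)
    (_hnp : ¬ IsPivotAt p ((W.map (Int.castRingHom ℚ)).residualGaloisRepOf p hcard hker) q)
    (_hres : W.IsResiduallyModularOfLevel p M)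
    (_hneat : Neat3 p q M),
    W.IsResiduallyModularOfLevel p (M / q)

/-- **PAD** at `p = 3`: a squarefree modular level can be multiplied by a good prime `r ≠ 3`,
`r ∤ M` (stabilisation). -/
def PadStatement : Prop :=
  ∀ (W : WeierstrassCurve ℤ) (_hΔ : W.Δ ≠ 0) (_hW : W.IsSemistableModel)
    (_hirr : W.ModRepIsIrreducible 3)
    (M r : ℕ) (_hM : Squarefree M) (_hr : r.Prime) (_hr3 : r ≠ 3) (_hrM : ¬ r ∣ M)
    (_hgood : W.IsGoodPrimeFor r)
    (_hres : W.IsResiduallyModularOfLevel 3 M),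
    W.IsResiduallyModularOfLevel 3 (r * M)

/-- **UNPAD** at `p = 3`: a good prime `r ≡ 2 mod 3` with `3 ∤ a_r(W)` (so that
`a_r² ≢ (r + 1)²`: no level raising at `r`) is removed from a squarefree modular level. -/
def UnpadStatement : Prop :=
  ∀ (W : WeierstrassCurve ℤ) (_hΔ : W.Δ ≠ 0) (_hW : W.IsSemistableModel)
    (_hirr : W.ModRepIsIrreducible 3)
    (M r : ℕ) (_hM : Squarefree (r * M)) (_hr : r.Prime) (_hr3 : r ≠ 3) (_hrM : ¬ r ∣ M)
    (_hgood : W.IsGoodPrimeFor r) (_hr2 : r % 3 = 2)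
    (_ha : ¬ (3 : ℤ) ∣ W.apOfModel r)
    (_hlr : ¬ (3 : ℤ) ∣ W.apOfModel r ^ 2 - ((r : ℤ) + 1) ^ 2)
    (_hres : W.IsResiduallyModularOfLevel 3 (r * M)),
    W.IsResiduallyModularOfLevel 3 M

/-- **CHEB-3**: outside any finite set there is a good prime `r ≡ 2 mod 3` with `3 ∤ a_r(W)`
(a Frobenius of order `8` in the image of `ρ̄`). -/
def Cheb3Statement : Prop :=
  ∀ (W : WeierstrassCurve ℤ) (_hΔ : W.Δ ≠ 0) (_hW : W.IsSemistableModel)
    (_hirr : W.ModRepIsIrreducible 3) (S : Finset ℕ),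
    ∃ r : ℕ, r.Prime ∧ r ∉ S ∧ r % 3 = 2 ∧ W.IsGoodPrimeFor r ∧ ¬ (3 : ℤ) ∣ W.apOfModel r

/-! ## Arithmetic -/

/-- `r ≡ 2 mod 3` and `3 ∤ a` give `3 ∤ a² − (r + 1)²`. -/
theorem not_dvd_sq_sub_sq {r : ℕ} (hr2 : r % 3 = 2) {a : ℤ} (ha : ¬ (3 : ℤ) ∣ a) :
    ¬ (3 : ℤ) ∣ a ^ 2 - ((r : ℤ) + 1) ^ 2 := by
  intro h
  have h3 : (3 : ℤ) ∣ (r : ℤ) + 1 := by
    have : (3 : ℕ) ∣ r + 1 := by omega
    exact_mod_cast this
  have h4 : (3 : ℤ) ∣ ((r : ℤ) + 1) ^ 2 := Dvd.dvd.pow h3 (by norm_num)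
  have h5 : (3 : ℤ) ∣ a ^ 2 := by
    have := dvd_add h h4
    simpa using this
  have hp : Prime (3 : ℤ) := by
    have : Nat.Prime 3 := by norm_num
    exact_mod_cast Nat.prime_iff_prime_int.mp this
  exact ha (hp.dvd_of_dvd_pow h5)

/-- A prime `r ∤ M` times a squarefree `M` is squarefree. -/
theorem squarefree_prime_mul {r M : ℕ} (hr : r.Prime) (hM : Squarefree M) (hrM : ¬ r ∣ M) :
    Squarefree (r * M) := by
  rw [Nat.squarefree_mul_iff]
  exact ⟨(Nat.Prime.coprime_iff_not_dvd hr).mpr hrM, hr.squarefree, hM⟩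

/-! ## The glue -/

/-- **`MazurW35` from the neat levels, PAD, UNPAD and CHEB-3.** -/
theorem mazurW35_of_neat (hN : MazurW35NeatStatement) (hPad : PadStatement)
    (hUnpad : UnpadStatement) (hCheb : Cheb3Statement) : MazurW35Statement := by
  intro p _ hp W hΔ hW hirr hcard hker M q hM hq hqp hqM hunr hnp hres
  by_cases hneat : Neat3 p q M
  · exact hN p hp W hΔ hW hirr hcard hker M q hM hq hqp hqM hunr hnp hres hneat
  -- not neat: `p = 3`
  have hp3 : p = 3 := by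
    by_contra h
    exact hneat (fun h' => absurd h' h)
  subst hp3
  have hM0 : M ≠ 0 := hM.ne_zero
  -- the Chebotarev prime
  obtain ⟨r, hr, hrS, hr2, hgood, ha⟩ := hCheb W hΔ hW hirr (M.primeFactors ∪ {3, q})
  have hrM : ¬ r ∣ M := by
    intro h
    exact hrS (Finset.mem_union_left _ (Nat.mem_primeFactors.mpr ⟨hr, h, hM0⟩))
  have hr3 : r ≠ 3 := by
    intro h
    exact hrS (Finset.mem_union_right _ (by simp [h]))
  have hrq : r ≠ q := by
    intro h
    exact hrS (Finset.mem_union_right _ (by simp [h]))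
  -- PAD
  have hres₁ : W.IsResiduallyModularOfLevel 3 (r * M) :=
    hPad W hΔ hW hirr M r hM hr hr3 hrM hgood hres
  have hsq₁ : Squarefree (r * M) := squarefree_prime_mul hr hM hrM
  -- Mazur at the neat level `r * M`
  have hneat₁ : Neat3 3 q (r * M) :=
    fun _ => Or.inr ⟨r, hr, Dvd.intro M rfl, hrq, hr2⟩
  have hres₂ : W.IsResiduallyModularOfLevel 3 (r * M / q) :=
    hN 3 hp W hΔ hW hirr hcard hker (r * M) q hsq₁ hq hqp (Dvd.dvd.mul_left hqM r) hunr hnp
      hres₁ hneat₁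
  rw [Nat.mul_div_assoc r hqM] at hres₂
  -- UNPAD
  have hdiv : M / q ∣ M := Nat.div_dvd_of_dvd hqM
  have hrMq : ¬ r ∣ M / q := fun h => hrM (h.trans hdiv)
  have hsq₂ : Squarefree (r * (M / q)) :=
    squarefree_prime_mul hr (hM.squarefree_of_dvd hdiv) hrMq
  exact hUnpad W hΔ hW hirr (M / q) r hsq₂ hr hr3 hrMq hgood hr2 ha
    (not_dvd_sq_sub_sq hr2 ha) hres₂

end Fermat.Agent.S59.LOQ.H849
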