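import Fermat.Agent.S59.LOQ.H213.Cells
import Fermat.Agent.S59.LOQ.H849.NeatGlue

/-!
# Row S59, cell LO-Q (B1): `MazurW35` from the NEAT cells + PAD / UNPAD / CHEB-3   (helper849)

On top of helper213's board (`LOQ/H213/{Spec,Cells}.lean`).  The cell `T3RestStatement` (targets at
`p = 3` at the levels which are not neat at `q`: descent of degree `r + 1 ≡ 0 mod 3`) is REPLACED by

* `T3Desc2NeatStatement` : targets at `p = 3`, `q = 2`, `3 ∤ M'`, `M'` neat at `2`
  (descent of degree `4` from the level `3 M'`: the twin of `T5Desc2Statement`), and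
* the statement-level inputs `PadStatement`, `UnpadStatement`, `Cheb3Statement` of `NeatGlue.lean`.

    mazurWAt_of_targetsAt : the glue of `H213.mazurW35_of_targets` at ONE level `(p, q, M')`
    mazurW35Neat_of_cells : T5Good → T5Two → T5Desc3 → T5Desc2 → T3Neat → T3Desc2Neat →
                            MazurW35NeatStatement
    mazurW35_of_cells_pad : the same + Pad + Unpad + Cheb3 → LOW.MazurW35Statement
-/

set_option autoImplicit false

open WeierstrassCurve WeierstrassCurve.Affine WeierstrassCurve.Affine.Point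
open CuspForm ModularFormClass UpperHalfPlane ModularCurve

namespace Fermat.Agent.S59.LOQ.H849

open Fermat.Agent.Ribet Fermat.Agent.Ribet.Spec Fermat.Agent.Ribet.H944.Wall
open Fermat.Agent.Ribet.H801 Fermat.Agent.Ribet.H158.WallQ
open Fermat.Agent.S59.Arch.LOW
open Fermat.Agent.S59.LOQ.H213 (TargetsAt DetFrobWStatement TorsionRankWStatement
  lowered_of_targetsQ_W fix_of_isUnramifiedAt exclusion_of_not_isPivotAt T5GoodStatement
  T5TwoStatement T5Desc3Statement T5Desc2Statement T3NeatStatement seven_le_of_prime)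

/-- **T3-DESC2-NEAT**: `p = 3`, `q = 2`, `3 ∤ M'`, `M'` neat at `2` (a prime `r ≡ 2 mod 3`,
`r ≠ 2`, divides `M'`). -/
def T3Desc2NeatStatement : Prop :=
  ∀ (M' : ℕ) [NeZero M'] [NeZero (2 * M')], ¬ 2 ∣ M' → ¬ 3 ∣ M' →
    Fermat.Agent.S59.LOQ.H213.Neat3 2 M' → TargetsAt 3 2 M'

/-- **The glue of LO-Q at ONE level**: the three targets at `(p, q, M')` give Mazur's principle
at the level `q M'`. -/
theorem mazurWAt_of_targetsAt (hE : EmbedWStatement) (hNE : NonEisWStatement)
    (hR3 : EigenformOfOccursAwayStatement) (hR3' : AlmostAllToWitnessWStatement)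
    (hPl : PlacesStatement) (hDet : DetFrobWStatement) (hDim : TorsionRankWStatement)
    (p : ℕ) [Fact p.Prime] (hp2 : p ≠ 2)
    (W : WeierstrassCurve ℤ) (hΔ : W.Δ ≠ 0)
    (hirr : W.ModRepIsIrreducible p)
    (hcard : Nat.card (Submodule.torsionBy ℤ
      ((W.map (Int.castRingHom ℚ))⁄(AlgebraicClosure ℚ)).Point p) = p ^ 2)
    (hker : GaloisFactorsThroughFiniteLevel
      (WeierstrassCurve.Affine.Point.galoisRepModuleEnd (K := AlgebraicClosure ℚ) ℚ
        (W.map (Int.castRingHom ℚ)) p))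
    (q M' : ℕ) [NeZero M'] [NeZero q] [NeZero (q * M')] (hq : q.Prime) (hqp : q ≠ p)
    (hunr : ((W.map (Int.castRingHom ℚ)).residualGaloisRepOf p hcard hker).IsUnramifiedAt q)
    (hnp : ¬ IsPivotAt p ((W.map (Int.castRingHom ℚ)).residualGaloisRepOf p hcard hker) q)
    (hres : W.IsResiduallyModularOfLevel p (q * M'))
    (hT : TargetsAt p q M') :
    W.IsResiduallyModularOfLevel p M' := by
  have hp : p.Prime := Fact.out
  have hM'pos : 0 < M' := Nat.pos_of_ne_zero (NeZero.ne M')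
  obtain ⟨f, 𝔪, hwit⟩ := hres
  obtain ⟨S, hemb⟩ := hE W p (q * M') hΔ hp hp2 hirr f 𝔪 hwit
  have hNE' : NonEisAway p (fun ℓ => W.apOfModel ℓ) := hNE W p hΔ hp hp2 hirr
  have hlow : Lowered M' p S (fun ℓ => W.apOfModel ℓ) := by
    rcases exclusion_of_not_isPivotAt W hcard hker hnp with hq1 | ⟨A, φ, hA, hφ, hns⟩
    · obtain ⟨A, hA, φ, hφ⟩ := hPl q hq
      obtain ⟨𝓕, 𝒮, h2, h3, h4⟩ := hT A hA
      exact lowered_of_targetsQ_W W hp hq hqp hirr (hDim W p hΔ hp) hφ
        (hDet W p hΔ hp hirr q hq hqp A hA φ hφ) (fix_of_isUnramifiedAt W hcard hker hunr A hA)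
        (Or.inl hq1) h2 h3 h4 hNE' hemb
    · obtain ⟨𝓕, 𝒮, h2, h3, h4⟩ := hT A hA
      exact lowered_of_targetsQ_W W hp hq hqp hirr (hDim W p hΔ hp) hφ
        (hDet W p hΔ hp hirr q hq hqp A hA φ hφ) (fix_of_isUnramifiedAt W hcard hker hunr A hA)
        (Or.inr hns) h2 h3 h4 hNE' hemb
  obtain ⟨S', g, 𝔪', hg, hmax, hpm, hc⟩ := eigenAway_of_lowered hR3 hp hlow
  exact ⟨g, 𝔪', hR3' W p M' hΔ hp hp2 hM'pos hirr g 𝔪' _ hg hmax hpm hc⟩

/-- Neatness of the level `q M'` at `q` in the two vocabularies. -/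
theorem neat3_h213_of_neat3 {q M' : ℕ} (hq : q.Prime) (h : Neat3 3 q (q * M')) :
    Fermat.Agent.S59.LOQ.H213.Neat3 q M' := by
  rcases h rfl with h1 | ⟨r, hr, hrM, hrq, hr2⟩
  · exact Or.inl h1
  · refine Or.inr ⟨r, hr, hr2, hrq, ?_⟩
    rcases (Nat.Prime.dvd_mul hr).mp hrM with h' | h'
    · exact absurd ((Nat.prime_dvd_prime_iff_eq hr hq).mp h') hrq
    · exact h'

/-- **The targets at the NEAT levels from the cells.** -/
theorem targetsAt_of_cells_neat (h5g : T5GoodStatement) (h5t : T5TwoStatement)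
    (h53 : T5Desc3Statement) (h52 : T5Desc2Statement) (h3n : T3NeatStatement)
    (h3d : T3Desc2NeatStatement)
    (p q M' : ℕ) [NeZero M'] [NeZero q] [NeZero (q * M')] (hp35 : p = 3 ∨ p = 5)
    (hq : q.Prime) (hqp : q ≠ p) (hqM : ¬ q ∣ M') (hneat : Neat3 p q (q * M')) :
    TargetsAt p q M' := by
  rcases hp35 with rfl | rfl
  · have hn : Fermat.Agent.S59.LOQ.H213.Neat3 q M' := neat3_h213_of_neat3 hq hneat
    by_cases h2 : q = 2 → 3 ∣ M'
    · exact h3n q M' hq hqp hqM h2 hn
    · have hq2 : q = 2 := by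
        by_contra h
        exact h2 (fun h' => absurd h' h)
      subst hq2
      have h3M : ¬ 3 ∣ M' := fun h => h2 (fun _ => h)
      exact h3d M' hqM h3M hn
  · by_cases h2 : q = 2
    · subst h2
      by_cases h3M : 3 ∣ M'
      · exact h5t M' hqM h3M
      · exact h52 M' hqM h3M
    · by_cases h3 : q = 3
      · subst h3
        by_cases h2M : 2 ∣ M'
        · exact h5g 3 M' hq hqp hqM (Or.inr ⟨rfl, h2M⟩)
        · exact h53 M' hqM h2M
      · exact h5g q M' hq hqp hqM (Or.inl (seven_le_of_prime hq h2 h3 hqp))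

/-- **Mazur's principle in W-form at the NEAT levels, from the cells and the row inputs.** -/
theorem mazurW35Neat_of_cells (hE : EmbedWStatement) (hNE : NonEisWStatement)
    (hR3 : EigenformOfOccursAwayStatement) (hR3' : AlmostAllToWitnessWStatement)
    (hPl : PlacesStatement) (hDet : DetFrobWStatement) (hDim : TorsionRankWStatement)
    (h5g : T5GoodStatement) (h5t : T5TwoStatement) (h53 : T5Desc3Statement)
    (h52 : T5Desc2Statement) (h3n : T3NeatStatement) (h3d : T3Desc2NeatStatement) :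
    MazurW35NeatStatement := by
  intro p _ hp35 W hΔ hW hirr hcard hker M q hM hq hqp hqM hunr hnp hres hneat
  have hp2 : p ≠ 2 := by rcases hp35 with h | h <;> omega
  obtain ⟨M', rfl⟩ := hqM
  have hM0 : q * M' ≠ 0 := hM.ne_zero
  have hM'0 : M' ≠ 0 := by
    rintro rfl
    simp at hM0
  rw [Nat.mul_div_cancel_left M' hq.pos]
  have hqM' : ¬ q ∣ M' := by
    rintro ⟨k, rfl⟩
    have h2 : q * q ∣ q * (q * k) := ⟨k, by ring⟩
    exact hq.not_isUnit (hM q h2)
  haveI : NeZero M' := ⟨hM'0⟩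
  haveI : NeZero q := ⟨hq.ne_zero⟩
  haveI : NeZero (q * M') := ⟨hM0⟩
  exact mazurWAt_of_targetsAt hE hNE hR3 hR3' hPl hDet hDim p hp2 W hΔ hirr hcard hker q M' hq
    hqp hunr hnp hres
    (targetsAt_of_cells_neat h5g h5t h53 h52 h3n h3d p q M' hp35 hq hqp hqM' hneat)

/-- **LO-Q from the NEAT cells, PAD, UNPAD and CHEB-3** (no cell `T3Rest`). -/
theorem mazurW35_of_cells_pad (hE : EmbedWStatement) (hNE : NonEisWStatement)
    (hR3 : EigenformOfOccursAwayStatement) (hR3' : AlmostAllToWitnessWStatement)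
    (hPl : PlacesStatement) (hDet : DetFrobWStatement) (hDim : TorsionRankWStatement)
    (h5g : T5GoodStatement) (h5t : T5TwoStatement) (h53 : T5Desc3Statement)
    (h52 : T5Desc2Statement) (h3n : T3NeatStatement) (h3d : T3Desc2NeatStatement)
    (hPad : PadStatement) (hUnpad : UnpadStatement) (hCheb : Cheb3Statement) :
    MazurW35Statement :=
  mazurW35_of_neat
    (mazurW35Neat_of_cells hE hNE hR3 hR3' hPl hDet hDim h5g h5t h53 h52 h3n h3d)
    hPad hUnpad hCheb

end Fermat.Agent.S59.LOQ.H849
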